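import Fermat.Agent.S59.NMP.H587.BettiCore

/-!
# S59 / cell NMP, leaf LGC, route CHAR (helper587) — the Betti bridge without representations

`betti_of_eigen`: let `x : Γ₀(N) → 𝒪` be a Betti eigenclass of the system `a` away from `Σ ∋ p`
(`p ∤ N`), and let `α ∈ 𝒪`.  Suppose that for every finite extension `𝒪'` of `𝒪` (complete
discrete valuation ring, `ι : 𝒪 → 𝒪'` local and injective) and every NONZERO eigenclass
`y : Γ₀(N) → 𝒪'` of the system `ι ∘ a` which is moreover an eigenvector of `T_p`, `T_p y = c y`,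
one has `ι α · c = ι α² + p`.  Then `α · T_p x = (α² + p) · x`.

(`T_p` is a root of a squarefree monic integral polynomial on the eigenclasses, hence
diagonalisable over the ring of integers of a splitting field.  This is `betti_bridge` with the
inner claim as a hypothesis.)
-/

set_option autoImplicit false
set_option linter.style.haveILetI false
set_option linter.unusedSectionVars false

noncomputable section

open Polynomial IsLocalRing CongruenceSubgroup ModularCurve ModularCurve.Period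

namespace Fermat.Agent.S59.NMP.H587

open CuspForm Fermat.Agent.S30.H709 Fermat.Agent.S59.NM.H709 Fermat.Agent.S41.Spec
  Fermat.Agent.S29.H642 Fermat.Agent.S59.NMP Fermat.Agent.S59

/-- **The Betti bridge, general form.** -/
theorem betti_of_eigen
    (p : ℕ) [Fact p.Prime]
    (𝒪 : Type) [CommRing 𝒪] [IsDomain 𝒪] [IsDiscreteValuationRing 𝒪]
    [IsAdicComplete (maximalIdeal 𝒪) 𝒪] [Finite (ResidueField 𝒪)] [CharZero 𝒪]
    (N : ℕ) [NeZero N] (hpN : ¬ p ∣ N) (Sig : Finset ℕ) (hpSig : p ∈ Sig)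
    (hNS : ∀ q : ℕ, q.Prime → q ∣ N → q ∈ Sig)
    (a : ℕ → 𝒪) (α : 𝒪)
    (hinner : ∀ (𝒪' : Type) [CommRing 𝒪'] [IsDomain 𝒪'] [IsDiscreteValuationRing 𝒪']
      [IsAdicComplete (maximalIdeal 𝒪') 𝒪'] [Finite (ResidueField 𝒪')] [CharZero 𝒪']
      (ι : 𝒪 →+* 𝒪') (_ : IsLocalHom ι) (_ : Function.Injective ι) (c : 𝒪')
      (y : Additive (Gamma0 N) →+ 𝒪'), y ≠ 0 →
      NM.IsEigenclass N Sig (fun ℓ => ι (a ℓ)) y → heckeTransfer hpN y = c • y →
      ι α * c = ι α ^ 2 + (p : 𝒪'))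
    (x : Additive (Gamma0 N) →+ 𝒪) (hx : NM.IsEigenclass N Sig a x) :
    α • heckeTransfer hpN x = (α ^ 2 + (p : 𝒪)) • x := by
  classical
  have hp : p.Prime := Fact.out
  -- the Hecke algebra containing `T_p`
  obtain ⟨S', hS'⟩ : ∃ S' : Finset ℕ, S' = Sig.erase p := ⟨_, rfl⟩
  have hpS' : p ∉ (↑S' : Set ℕ) := by
    rw [Finset.mem_coe, hS']
    exact Finset.notMem_erase p Sig
  have hNS' : ∀ q : ℕ, q.Prime → q ∣ N → q ∈ (↑S' : Set ℕ) := by
    intro q hq hqN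
    rw [Finset.mem_coe, hS', Finset.mem_erase]
    exact ⟨fun h => hpN (h ▸ hqN), hNS q hq hqN⟩
  have hSig_of : ∀ ℓ : ℕ, ℓ ∉ (↑S' : Set ℕ) → ℓ ≠ p → ℓ ∉ Sig := by
    intro ℓ hℓ hℓp hmem
    refine hℓ ?_
    rw [hS']
    exact Finset.mem_coe.mpr (Finset.mem_erase.mpr ⟨hℓp, hmem⟩)
  have hS'_of : ∀ ℓ : ℕ, ℓ ∉ Sig → ℓ ∉ (↑S' : Set ℕ) ∧ ℓ ≠ p := by
    intro ℓ hℓ
    refine ⟨fun hmem => hℓ ?_, fun h => hℓ ?_⟩
    · rw [Finset.mem_coe, hS'] at hmem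
      exact Finset.mem_of_mem_erase hmem
    · rw [h]
      exact hpSig
  obtain ⟨t, ht⟩ : ∃ t : heckeAlgebra N 2 (↑S' : Set ℕ), t = heckeAlgebra.T hp hpN hpS' :=
    ⟨_, rfl⟩
  -- a squarefree annihilating polynomial
  haveI : IsReduced (heckeAlgebra N 2 (↑S' : Set ℕ)) :=
    Fermat.Agent.S31.H862.heckeAlgebra_isReduced N _ hNS'
  haveI : Module.Finite ℤ (heckeAlgebra N 2 (↑S' : Set ℕ)) := Fermat.Agent.S22.result N 2 _
  obtain ⟨R, hRm, hRsq, hRt⟩ :=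
    exists_monic_squarefree_aeval_eq_zero t (Algebra.IsIntegral.isIntegral t)
  -- the ring of integers of the splitting field
  obtain ⟨𝒪', _, _, _, _, _, _, _, _, hlh, hinj, s, hs, hRs⟩ := exists_dvr_rootPoly 𝒪 R hRm hRsq
  obtain ⟨ι, hι⟩ : ∃ ι : 𝒪 →+* 𝒪', ι = algebraMap 𝒪 𝒪' := ⟨_, rfl⟩
  rw [← hι] at hlh hinj
  have hp0 : (p : 𝒪') ≠ 0 := by
    exact_mod_cast hp.ne_zero
  -- the operator `T_p` on `W = Hom(Λ, 𝒪')` and the eigenspace `Y`
  obtain ⟨T, hT⟩ : ∃ T : Module.End 𝒪' (perLattice N →+ 𝒪'), T = actHom 𝒪' hNS' t := ⟨_, rfl⟩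
  obtain ⟨Y, hY⟩ : ∃ Y : Submodule 𝒪' (perLattice N →+ 𝒪'),
      Y = eigSub 𝒪' hNS' p (fun ℓ => ι (a ℓ)) := ⟨_, rfl⟩
  have hTY : ∀ v ∈ Y, T v ∈ Y := by
    intro v hv
    rw [hY] at hv ⊢
    rw [hT]
    exact actHom_mem_eigSub 𝒪' hNS' t hv
  have hTs : aeval T (rootPoly s) = 0 := by
    rw [← hRs, hT]
    exact aeval_actHom_eq_zero 𝒪' hNS' t R hRt
  -- the class `x` over `𝒪'`
  obtain ⟨x', hx'⟩ : ∃ x' : Additive (Gamma0 N) →+ 𝒪', x' = ι.toAddMonoidHom.comp x := ⟨_, rfl⟩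
  have hx'par : IsParabolicHom (Gamma0 N) x' := by
    intro γ hγ
    rw [hx', AddMonoidHom.comp_apply, hx.1.1 γ hγ, map_zero]
  obtain ⟨u, hu⟩ : ∃ u : perLattice N →+ 𝒪', u = ofCls x' hx'par := ⟨_, rfl⟩
  have htu : toCls u = x' := by
    rw [hu]
    exact toCls_ofCls x' hx'par
  have huY : u ∈ Y := by
    rw [hY]
    intro ℓ hℓ hℓN hℓS hℓp
    haveI : Fact ℓ.Prime := ⟨hℓ⟩
    apply toCls_injective
    rw [toCls_actHom_T 𝒪' hNS' hℓN hℓS u, htu, toCls_smul, htu, hx', heckeTransfer_comp,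
      hx.2 ℓ hℓN (hSig_of ℓ hℓS hℓp)]
    refine AddMonoidHom.ext fun γ => ?_
    simp
  -- the eigenvalues of `T_p` on `Y`
  have H : ∀ (c : 𝒪') (v : perLattice N →+ 𝒪'), v ∈ Y → v ≠ 0 → T v = c • v →
      ι α * c = ι α ^ 2 + (p : 𝒪') := by
    intro c v hv hv0 hTv
    rw [hY] at hv
    rw [hT, ht] at hTv
    refine hinner 𝒪' ι hlh hinj c (toCls v) (fun h0 => hv0 (toCls_injective ?_))
      ⟨isCuspidal_toCls v, ?_⟩ ?_
    · rw [h0, toCls_zero]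
    · intro ℓ _ hℓN hℓS
      have h1 := hv ℓ Fact.out hℓN (hS'_of ℓ hℓS).1 (hS'_of ℓ hℓS).2
      have h2 := congrArg toCls h1
      rw [toCls_actHom_T 𝒪' hNS' hℓN (hS'_of ℓ hℓS).1 v, toCls_smul] at h2
      exact h2
    · have h2 := congrArg toCls hTv
      rw [toCls_actHom_T 𝒪' hNS' hpN hpS' v, toCls_smul] at h2
      exact h2
  have hαβ : ι α = 0 → ι α ^ 2 + (p : 𝒪') ≠ 0 := by
    intro h0
    rw [h0]
    simpa using hp0
  have hfin := smul_apply_eq_of_aeval_prod T Y hTY (ι α) (ι α ^ 2 + (p : 𝒪')) hαβ H s hs huY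
    (by rw [hTs]; rfl)
  -- back to the classes
  have hcls : ι α • heckeTransfer hpN x' = (ι α ^ 2 + (p : 𝒪')) • x' := by
    have h1 := congrArg toCls hfin
    rw [toCls_smul, toCls_smul, hT, ht, toCls_actHom_T 𝒪' hNS' hpN hpS' u, htu] at h1
    exact h1
  refine AddMonoidHom.ext fun γ => ?_
  apply hinj
  have h2 := DFunLike.congr_fun hcls γ
  rw [hx', heckeTransfer_comp] at h2
  simpa using h2

end Fermat.Agent.S59.NMP.H587
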