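import Fermat.Agent.S59.NMP.H161.BettiCore

/-!
# S59 / cell NMP, leaf LGC, route CHAR (helper587) — eigen-homs from `T_p`-eigenclasses

`exists_eigenHom_of_eigenclass`: a nonzero Betti eigenclass `x : Γ₀(N) → 𝒪` of the system `a`
(away from `Σ`) with `T_p x = c x` (`p ∤ N`) gives a nonzero eigen-hom `f : Frac 𝒪 / 𝒪 → J₀(N)`
of the system `a` with `T_p ∘ f = f ∘ c`.

Construction of helper161 (`NMP/H161/BettiCore.lean`): `f (z) = κ (γ ↦ ϑ (x γ · z))`, `ϑ` a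
character of `Frac 𝒪 / 𝒪` with `ϑ (1/ϖ) ≠ 0`, `κ` the `p`-primary Kummer map (additive, injective,
Hecke-equivariant at all primes `ℓ ∤ N` including `ℓ = p`: `NMP/H161/KumAll.lean`).
-/

set_option autoImplicit false
set_option linter.style.haveILetI false

open IsLocalRing CongruenceSubgroup
open scoped MatrixGroups

noncomputable section

namespace Fermat.Agent.S59.NMP.H587

open Fermat.Agent.S29 Fermat.Agent.S29.M4b ModularCurve Fermat.Agent.S30.H450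
  Fermat.Agent.S30.H330 Fermat.Agent.Ribet.H883 Fermat.Agent.S41.Spec Fermat.Agent.S29.H642
  Fermat.Agent.S59.NMP.H161

/-- **Eigen-homs from `T_p`-eigenclasses.** -/
theorem exists_eigenHom_of_eigenclass {p : ℕ} [Fact p.Prime] {𝒪 : Type} [CommRing 𝒪]
    [IsDomain 𝒪] [IsDiscreteValuationRing 𝒪] (hp𝒪 : (p : 𝒪) ∈ maximalIdeal 𝒪)
    {N : ℕ} [NeZero N] (hpN : ¬ p ∣ N) (Sig : Finset ℕ) (a : ℕ → 𝒪) (c : 𝒪)
    (x : Additive (Gamma0 N) →+ 𝒪) (hx : NM.IsEigenclass N Sig a x) (hx0 : x ≠ 0)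
    (hxp : heckeTransfer hpN x = c • x) :
    ∃ f : FractionRing 𝒪 →+ JZero N, f ≠ 0 ∧
      (∀ r : 𝒪, f (algebraMap 𝒪 (FractionRing 𝒪) r) = 0) ∧
      (∀ ℓ : Nat.Primes, ¬ (ℓ : ℕ) ∣ N → (ℓ : ℕ) ∉ Sig → ∀ z : FractionRing 𝒪,
        heckeOperatorBar N ℓ (f z) = f (algebraMap 𝒪 (FractionRing 𝒪) (a ℓ) * z)) ∧
      ∀ z : FractionRing 𝒪, heckeOperatorBar N ⟨p, Fact.out⟩ (f z) =
        f (algebraMap 𝒪 (FractionRing 𝒪) c * z) := by
  classical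
  haveI : NeZero p := ⟨(Fact.out : p.Prime).ne_zero⟩
  obtain ⟨hxc, hxe⟩ := hx
  have hc : IsParHom (funOf x) := isParHom_funOf_of_cuspidal hxc
  obtain ⟨ϖ, hϖ⟩ := IsDiscreteValuationRing.exists_irreducible 𝒪
  obtain ⟨ϑ, hϑ0, hϑ1⟩ := exists_character hϖ
  have hϖ0 : algebraMap 𝒪 (FractionRing 𝒪) ϖ ≠ 0 := algebraMap_irreducible_ne_zero hϖ
  -- the characters `c_z = (γ ↦ ϑ (x γ · z))`
  set cx : FractionRing 𝒪 → (G0 N → QZ) := fun z γ => twist161 ϑ z (funOf x γ) with hcx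
  have hpar : ∀ z, IsParHom (cx z) := fun z => isParHom_comp hc (twist161 ϑ z)
  have hpow : ∀ z, ∃ n : ℕ, p ^ n • cx z = 0 := by
    intro z
    obtain ⟨n, hn⟩ := twist161_pow hp𝒪 ϑ hϑ0 z
    exact ⟨n, funext fun γ => hn _⟩
  have hcx_add : ∀ z z', cx (z + z') = cx z + cx z' := fun z z' =>
    funext fun γ => twist161_add ϑ z z' _
  have hcx_int : ∀ r : 𝒪, cx (algebraMap 𝒪 (FractionRing 𝒪) r) = 0 := fun r =>
    funext fun γ => twist161_int ϑ hϑ0 r _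
  -- Hecke operators on the `c_z`
  have hcx_hecke : ∀ (ℓ : ℕ) (z : FractionRing 𝒪),
      heckeCoh N ℓ (cx z) = fun γ => twist161 ϑ z (heckeCoh N ℓ (funOf x) γ) := fun ℓ z =>
    heckeCoh_comp (N := N) ℓ (funOf x) (twist161 ϑ z)
  -- the eigen-hom
  let f : FractionRing 𝒪 →+ JZero N := AddMonoidHom.mk' (fun z => kumQZ N p (cx z))
    (fun z z' => by
      show kumQZ N p (cx (z + z')) = kumQZ N p (cx z) + kumQZ N p (cx z')
      rw [hcx_add, kumQZ_add' (hpar z) (hpar z') (hpow z) (hpow z')])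
  have hf : ∀ z, f z = kumQZ N p (cx z) := fun _ => rfl
  refine ⟨f, ?_, fun r => ?_, fun ℓ hℓN hℓS z => ?_, fun z => ?_⟩
  · -- `f ≠ 0`
    intro hf0
    obtain ⟨g, hg⟩ : ∃ g, x g ≠ 0 := by
      by_contra hcon
      push Not at hcon
      exact hx0 (AddMonoidHom.ext hcon)
    obtain ⟨γ, rfl⟩ : ∃ γ : Gamma0 N, Additive.ofMul γ = g := ⟨Additive.toMul g, rfl⟩
    have hwL : algebraMap 𝒪 (FractionRing 𝒪) (x (Additive.ofMul γ)) ≠ 0 := by
      simpa using hg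
    set z₀ : FractionRing 𝒪 := (algebraMap 𝒪 (FractionRing 𝒪) (x (Additive.ofMul γ)))⁻¹ *
      (algebraMap 𝒪 (FractionRing 𝒪) ϖ)⁻¹ with hz₀
    have h1 : kumQZ N p (cx z₀) = kumQZ N p (cx (algebraMap 𝒪 (FractionRing 𝒪) 0)) := by
      rw [← hf, ← hf, hf0]
      rfl
    have h2 := eq_of_kumQZ_eq (hpar _) (hpar _) (hpow _) (hpow _) h1
    rw [hcx_int] at h2
    have h3 : twist161 ϑ z₀ (funOf x γ) = 0 := congrFun h2 γ
    apply hϑ1
    rw [← h3, twist161_apply, hz₀]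
    show ϑ (algebraMap 𝒪 (FractionRing 𝒪) ϖ)⁻¹ =
      ϑ (algebraMap 𝒪 (FractionRing 𝒪) (x (Additive.ofMul γ)) *
        ((algebraMap 𝒪 (FractionRing 𝒪) (x (Additive.ofMul γ)))⁻¹ *
          (algebraMap 𝒪 (FractionRing 𝒪) ϖ)⁻¹))
    rw [mul_inv_cancel_left₀ hwL]
  · rw [hf, hcx_int, kumQZ_zero']
  · haveI : Fact (ℓ : ℕ).Prime := ⟨ℓ.2⟩
    rw [hf, hf, ← kumQZ_hecke_any ℓ hℓN (hpar z) (hpow z), hcx_hecke]
    congr 1
    funext γ
    have h1 := congrFun (funOf_heckeTransfer hℓN x) γ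
    rw [← h1, hxe (ℓ : ℕ) hℓN hℓS]
    show twist161 ϑ z ((a ℓ • x) (Additive.ofMul γ)) = twist161 ϑ _ (funOf x γ)
    rw [twist161_mul]
    rfl
  · rw [hf, hf, ← kumQZ_hecke_any ⟨p, Fact.out⟩ hpN (hpar z) (hpow z), hcx_hecke]
    congr 1
    funext γ
    have h1 := congrFun (funOf_heckeTransfer hpN x) γ
    show twist161 ϑ z (heckeCoh N p (funOf x) γ) = twist161 ϑ _ (funOf x γ)
    rw [← h1, hxp]
    show twist161 ϑ z ((c • x) (Additive.ofMul γ)) = twist161 ϑ _ (funOf x γ)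
    rw [twist161_mul]
    rfl

end Fermat.Agent.S59.NMP.H587
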