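import Fermat.Agent.S59.NM.H709.Action

/-!
# S59 / cell NMP, leaf LGC, bridge BETTI (helper587) — eigenclasses give characters

`W = Hom(Λ, O)` (`Λ` the period lattice of level `N`) with the action `NM.H709.actHom` of the Hecke
algebra `𝕋 = heckeAlgebra N 2 S` (`S` any set of primes containing the primes dividing `N`).

* `exists_char_of_eigen` : a nonzero `u ∈ W` which is an eigenvector of every `T_ℓ` (`ℓ ∉ S`,
  `ℓ ∤ N`) is an eigenvector of `𝕋`; the eigenvalues form a ring homomorphism `χ : 𝕋 →+* O`.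
-/

set_option autoImplicit false

noncomputable section

namespace Fermat.Agent.S59.NMP.H587

open CongruenceSubgroup ModularCurve ModularCurve.Period CuspForm
open Fermat.Agent.S30.H709 Fermat.Agent.S59.NM.H709
open scoped MatrixGroups

variable {N : ℕ} [NeZero N] {S : Set ℕ} {O : Type} [CommRing O] [IsDomain O]

omit [NeZero N] in
theorem smul_eq_smul_iff_of_ne_zero {Λ : Type*} [AddCommGroup Λ] {u : Λ →+ O} (hu : u ≠ 0)
    {c c' : O} : c • u = c' • u ↔ c = c' := by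
  constructor
  · intro h
    obtain ⟨x, hx⟩ : ∃ x, u x ≠ 0 := by
      by_contra hcon
      push Not at hcon
      exact hu (AddMonoidHom.ext hcon)
    have := DFunLike.congr_fun h x
    rw [AddMonoidHom.smul_apply, AddMonoidHom.smul_apply, smul_eq_mul, smul_eq_mul] at this
    exact mul_right_cancel₀ hx this
  · rintro rfl
    rfl

omit [IsDomain O] in
/-- Every element of the Hecke algebra acts on a joint eigenvector of the generators by a
scalar. -/
theorem exists_scalar_of_eigen (hNS : ∀ q : ℕ, q.Prime → q ∣ N → q ∈ S)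
    (u : perLattice N →+ O) (e : ℕ → O)
    (he : ∀ (ℓ : ℕ) (hℓ : ℓ.Prime) (hℓN : ¬ ℓ ∣ N) (hℓS : ℓ ∉ S),
      actHom O hNS (heckeAlgebra.T hℓ hℓN hℓS) u = e ℓ • u)
    (t : heckeAlgebra N 2 S) : ∃ c : O, actHom O hNS t u = c • u := by
  obtain ⟨t, ht⟩ := t
  unfold heckeAlgebra at ht
  induction ht using Algebra.adjoin_induction with
  | mem x hx =>
    rcases hx with ⟨ℓ, hℓ, hℓN, hℓS, rfl⟩ | ⟨q, hqN, hq, hqS, rfl⟩
    · exact ⟨e ℓ, he ℓ hℓ hℓN hℓS⟩
    · exact absurd (hNS q hq hqN) hqS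
  | algebraMap r =>
    refine ⟨(r : O), ?_⟩
    have h1 : (⟨algebraMap ℤ (Module.End ℂ (CuspForm (Gamma0 N) 2)) r,
        Subalgebra.algebraMap_mem _ r⟩ : heckeAlgebra N 2 S) = (r : heckeAlgebra N 2 S) := by
      apply Subtype.ext
      simp
    rw [h1, map_intCast]
    refine AddMonoidHom.ext fun x => ?_
    simp
  | add x y hx hy ihx ihy =>
    obtain ⟨cx, hcx⟩ := ihx
    obtain ⟨cy, hcy⟩ := ihy
    refine ⟨cx + cy, ?_⟩
    have h1 : (⟨x + y, Subalgebra.add_mem _ hx hy⟩ : heckeAlgebra N 2 S) =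
        (⟨x, hx⟩ : heckeAlgebra N 2 S) + ⟨y, hy⟩ := rfl
    rw [h1, map_add, LinearMap.add_apply, hcx, hcy, add_smul]
  | mul x y hx hy ihx ihy =>
    obtain ⟨cx, hcx⟩ := ihx
    obtain ⟨cy, hcy⟩ := ihy
    refine ⟨cx * cy, ?_⟩
    have h1 : (⟨x * y, Subalgebra.mul_mem _ hx hy⟩ : heckeAlgebra N 2 S) =
        (⟨x, hx⟩ : heckeAlgebra N 2 S) * ⟨y, hy⟩ := rfl
    rw [h1, map_mul, Module.End.mul_apply, hcy, map_smul, hcx, smul_smul, mul_comm]

/-- **Eigenclasses give characters.**  A nonzero joint eigenvector `u ∈ Hom(Λ, O)` of the `T_ℓ`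
(`ℓ ∉ S`, `ℓ ∤ N`), with eigenvalues `e ℓ`, defines a ring homomorphism
`χ : heckeAlgebra N 2 S →+* O` with `χ (T_ℓ) = e ℓ` and `t u = χ t • u`. -/
theorem exists_char_of_eigen (hNS : ∀ q : ℕ, q.Prime → q ∣ N → q ∈ S)
    (u : perLattice N →+ O) (hu : u ≠ 0) (e : ℕ → O)
    (he : ∀ (ℓ : ℕ) (hℓ : ℓ.Prime) (hℓN : ¬ ℓ ∣ N) (hℓS : ℓ ∉ S),
      actHom O hNS (heckeAlgebra.T hℓ hℓN hℓS) u = e ℓ • u) :
    ∃ χ : heckeAlgebra N 2 S →+* O, (∀ t, actHom O hNS t u = χ t • u) ∧
      ∀ (ℓ : ℕ) (hℓ : ℓ.Prime) (hℓN : ¬ ℓ ∣ N) (hℓS : ℓ ∉ S),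
        χ (heckeAlgebra.T hℓ hℓN hℓS) = e ℓ := by
  classical
  choose c hc using exists_scalar_of_eigen hNS u e he
  have huniq : ∀ {a b : O}, a • u = b • u → a = b := fun h =>
    (smul_eq_smul_iff_of_ne_zero hu).mp h
  refine ⟨{ toFun := c
            map_one' := huniq (by rw [← hc, map_one, Module.End.one_apply, one_smul])
            map_mul' := fun x y => huniq (by
              rw [← hc, map_mul, Module.End.mul_apply, hc y, map_smul, hc x, smul_smul, mul_comm])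
            map_zero' := huniq (by rw [← hc, map_zero, LinearMap.zero_apply, zero_smul])
            map_add' := fun x y => huniq (by
              rw [← hc, map_add, LinearMap.add_apply, hc x, hc y, add_smul]) }, hc, ?_⟩
  intro ℓ hℓ hℓN hℓS
  exact huniq ((hc _).symm.trans (he ℓ hℓ hℓN hℓS))

end Fermat.Agent.S59.NMP.H587
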