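import Mathlib

/-!
# S59 / cell NMP, leaf LGC, bridge BETTI (helper587) — linear algebra

`T` an endomorphism of a module `W` over a domain `D`, `Y` a `T`-stable submodule, `x ∈ Y` killed
by `∏_{b ∈ s} (T - b)` for a multiset `s` without repetition.  If every eigenvalue `c` of `T` on
`Y` satisfies `α c = β` (and `α = 0 → β ≠ 0`), then `α T x = β x`.

* `exists_eigenvector_of_aeval_prod` : a nonzero vector killed by `∏ (T - b)` produces an
  eigenvector of `T` with eigenvalue in `s` (no hypothesis on `s`, no torsion hypothesis).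
* `smul_apply_eq_of_aeval_prod` : the statement above.
-/

set_option autoImplicit false

open Polynomial

namespace Fermat.Agent.S59.NMP.H587

section

variable {D W : Type*} [CommRing D] [AddCommGroup W] [Module D W]

/-- The monic polynomial with the roots `s`. -/
noncomputable def rootPoly (s : Multiset D) : D[X] := (s.map fun b => X - C b).prod

theorem rootPoly_zero : rootPoly (0 : Multiset D) = 1 := by
  simp [rootPoly]

theorem rootPoly_cons (b : D) (s : Multiset D) :
    rootPoly (b ::ₘ s) = (X - C b) * rootPoly s := by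
  simp [rootPoly]

theorem rootPoly_add (s t : Multiset D) : rootPoly (s + t) = rootPoly s * rootPoly t := by
  simp [rootPoly]

theorem aeval_X_sub_C_apply (T : Module.End D W) (b : D) (v : W) :
    aeval T (X - C b : D[X]) v = T v - b • v := by
  simp

theorem aeval_mem (T : Module.End D W) (Y : Submodule D W) (hY : ∀ v ∈ Y, T v ∈ Y)
    (q : D[X]) {v : W} (hv : v ∈ Y) : aeval T q v ∈ Y := by
  induction q using Polynomial.induction_on' with
  | add p q hp hq =>
    rw [map_add, LinearMap.add_apply]
    exact Y.add_mem hp hq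
  | monomial n a =>
    rw [aeval_monomial, Module.End.mul_apply, Module.algebraMap_end_apply]
    refine Y.smul_mem _ ?_
    clear a
    induction n with
    | zero => simpa using hv
    | succ n ih =>
      rw [pow_succ', Module.End.mul_apply]
      exact hY _ ih

/-- **Existence of an eigenvector.**  If `∏_{b ∈ s} (T - b)` kills the nonzero vector `v ∈ Y`,
there is an eigenvector of `T` in `Y` with eigenvalue in `s`. -/
theorem exists_eigenvector_of_aeval_prod (T : Module.End D W) (Y : Submodule D W)
    (hY : ∀ v ∈ Y, T v ∈ Y) (s : Multiset D) :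
    ∀ v ∈ Y, v ≠ 0 → aeval T (rootPoly s) v = 0 →
      ∃ b ∈ s, ∃ w ∈ Y, w ≠ 0 ∧ T w = b • w := by
  induction s using Multiset.induction_on with
  | empty =>
    intro v _ hv0 h
    rw [rootPoly_zero, map_one, Module.End.one_apply] at h
    exact absurd h hv0
  | cons b s ih =>
    intro v hv hv0 h
    rw [rootPoly_cons, map_mul, Module.End.mul_apply, aeval_X_sub_C_apply] at h
    by_cases hw : aeval T (rootPoly s) v = 0
    · obtain ⟨b', hb', w, hw', hw0, hTw⟩ := ih v hv hv0 hw
      exact ⟨b', Multiset.mem_cons_of_mem hb', w, hw', hw0, hTw⟩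
    · exact ⟨b, Multiset.mem_cons_self b s, _, aeval_mem T Y hY _ hv, hw, sub_eq_zero.mp h⟩

variable [IsDomain D]

/-- **The eigenvalue lemma.**  `x ∈ Y` is killed by `∏_{b ∈ s} (T - b)`, `s` without repetition,
and every eigenvalue `c` of `T` on `Y` satisfies `α c = β`.  Then `α T x = β x`. -/
theorem smul_apply_eq_of_aeval_prod (T : Module.End D W) (Y : Submodule D W)
    (hY : ∀ v ∈ Y, T v ∈ Y) (α β : D) (hαβ : α = 0 → β ≠ 0)
    (H : ∀ (c : D) (v : W), v ∈ Y → v ≠ 0 → T v = c • v → α * c = β)
    (s : Multiset D) (hs : s.Nodup) {x : W} (hx : x ∈ Y)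
    (hxs : aeval T (rootPoly s) x = 0) : α • T x = β • x := by
  classical
  by_cases hx0 : x = 0
  · rw [hx0, map_zero, smul_zero, smul_zero]
  -- `α ≠ 0`
  have hα : α ≠ 0 := by
    obtain ⟨b, -, w, hw, hw0, hTw⟩ := exists_eigenvector_of_aeval_prod T Y hY s x hx hx0 hxs
    intro h0
    have := H b w hw hw0 hTw
    rw [h0, zero_mul] at this
    exact hαβ h0 this.symm
  -- the vector `x'' = α T x - β x`
  set x'' : W := α • T x - β • x with hx''
  have hx''Y : x'' ∈ Y := Y.sub_mem (Y.smul_mem _ (hY x hx)) (Y.smul_mem _ hx)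
  have hx''eq : x'' = aeval T (C α * X - C β : D[X]) x := by
    simp [hx'']
  -- the roots `b` with `α b ≠ β`
  set s' := s.filter fun b => α * b ≠ β with hs'
  set s₀ := s.filter fun b => ¬ (α * b ≠ β) with hs₀
  have hsplit : s' + s₀ = s := Multiset.filter_add_not _ s
  have hkill : aeval T (rootPoly s') x'' = 0 := by
    rcases Multiset.empty_or_exists_mem s₀ with h0 | ⟨b₀, hb₀⟩
    · -- no root with `α b = β`
      have : s' = s := by rw [← hsplit, h0, add_zero]
      rw [this, hx''eq, ← Module.End.mul_apply, ← map_mul, mul_comm, map_mul,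
        Module.End.mul_apply, hxs, map_zero]
    · -- exactly one such root
      have hb₀β : α * b₀ = β := by
        have := (Multiset.mem_filter.mp hb₀).2
        exact not_not.mp this
      have hone : s₀ = {b₀} := by
        have hnd : s₀.Nodup := Multiset.Nodup.filter _ hs
        refine Multiset.Nodup.ext hnd (Multiset.nodup_singleton b₀) |>.mpr fun b => ?_
        rw [Multiset.mem_singleton]
        constructor
        · intro hb
          have hbβ : α * b = β := not_not.mp (Multiset.mem_filter.mp hb).2
          exact mul_left_cancel₀ hα (hbβ.trans hb₀β.symm)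
        · rintro rfl
          exact hb₀
      have hpoly : (C α * X - C β : D[X]) = C α * (X - C b₀) := by
        rw [mul_sub, ← C_mul, hb₀β]
      have hfac : rootPoly s = rootPoly s' * (X - C b₀) := by
        rw [← hsplit, rootPoly_add, hone]
        simp [rootPoly]
      rw [hx''eq, hpoly, ← Module.End.mul_apply, ← map_mul,
        show rootPoly s' * (C α * (X - C b₀)) = C α * rootPoly s by rw [hfac]; ring,
        map_mul, Module.End.mul_apply, hxs, map_zero]
  -- conclusion
  by_contra hne
  have hx''0 : x'' ≠ 0 := fun h => hne (sub_eq_zero.mp h)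
  obtain ⟨b, hb, w, hw, hw0, hTw⟩ :=
    exists_eigenvector_of_aeval_prod T Y hY s' x'' hx''Y hx''0 hkill
  exact (Multiset.mem_filter.mp hb).2 (H b w hw hw0 hTw)

end

end Fermat.Agent.S59.NMP.H587
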