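import Mathlib

/-!
# S59 / cell NMP, leaf LGC, bridge BETTI (helper587) — a squarefree annihilating polynomial

In a reduced commutative ring, an element `t` which is integral over `ℤ` is a root of a monic
polynomial `R ∈ ℤ[X]` which is squarefree over `ℚ`; hence `R` is separable over every field of
characteristic zero.
-/

set_option autoImplicit false

open Polynomial UniqueFactorizationMonoid

namespace Fermat.Agent.S59.NMP.H587

/-- **A squarefree annihilating polynomial.** -/
theorem exists_monic_squarefree_aeval_eq_zero {A : Type*} [CommRing A] [IsReduced A] (t : A)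
    (ht : IsIntegral ℤ t) :
    ∃ R : ℤ[X], R.Monic ∧ Squarefree (R.map (Int.castRingHom ℚ)) ∧ aeval t R = 0 := by
  classical
  obtain ⟨m, hm, hmt⟩ := ht
  have hinj : Function.Injective (Int.castRingHom ℚ) := Int.cast_injective
  set mQ : ℚ[X] := m.map (Int.castRingHom ℚ) with hmQ
  have hmQm : mQ.Monic := hm.map _
  have hmQ0 : mQ ≠ 0 := hmQm.ne_zero
  -- the monic radical
  set r : ℚ[X] := normalize (radical mQ) with hr
  have hrad0 : radical mQ ≠ 0 := fun h => by
    have := radical_dvd_self (a := mQ)
    rw [h, zero_dvd_iff] at this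
    exact hmQ0 this
  have hrm : r.Monic := monic_normalize hrad0
  have hassoc : Associated r (radical mQ) := normalize_associated _
  have hrsq : Squarefree r := (squarefree_radical (a := mQ)).squarefree_of_dvd hassoc.dvd
  have hrdvd : r ∣ mQ := hassoc.dvd.trans radical_dvd_self
  obtain ⟨n, hn⟩ := exists_dvd_radical_self_pow hmQ0
  have hn' : mQ ∣ r ^ n := hn.trans (pow_dvd_pow_of_dvd hassoc.symm.dvd n)
  -- descend to `ℤ[X]`
  obtain ⟨R, hR⟩ := IsIntegrallyClosed.eq_map_mul_C_of_dvd ℚ hm hrdvd
  rw [hrm.leadingCoeff, C_1, mul_one] at hR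
  have hR' : R.map (Int.castRingHom ℚ) = r := hR
  have hRm : R.Monic := monic_of_injective hinj (by rw [hR']; exact hrm)
  refine ⟨R, hRm, by rw [hR']; exact hrsq, ?_⟩
  have hdvd : m ∣ R ^ n := by
    rw [← map_dvd_map (Int.castRingHom ℚ) hinj hm, Polynomial.map_pow, hR']
    exact hn'
  obtain ⟨q, hq⟩ := hdvd
  have hpow : aeval t R ^ n = 0 := by
    rw [← map_pow, hq, map_mul]
    have : aeval t m = 0 := by rw [aeval_def]; exact hmt
    rw [this, zero_mul]
  exact IsReduced.eq_zero _ ⟨n, hpow⟩

/-- The polynomial of `exists_monic_squarefree_aeval_eq_zero` is separable over every field of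
characteristic zero. -/
theorem separable_map_of_squarefree_rat {R : ℤ[X]}
    (hR : Squarefree (R.map (Int.castRingHom ℚ))) (L : Type*) [Field L] [CharZero L] :
    (R.map (Int.castRingHom L)).Separable := by
  have h1 : (R.map (Int.castRingHom ℚ)).Separable := PerfectField.separable_iff_squarefree.mpr hR
  have h2 := h1.map (f := algebraMap ℚ L)
  rw [Polynomial.map_map] at h2
  have : (algebraMap ℚ L).comp (Int.castRingHom ℚ) = Int.castRingHom L := RingHom.ext_int _ _
  rwa [this] at h2

end Fermat.Agent.S59.NMP.H587
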