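import Fermat.Agent.S59.G4.H109.PointsDVR
import Fermat.Agent.S59.NMP.H587.EigenLin
import Fermat.Agent.S59.NMP.H587.SqfreeAnn

/-!
# S59 / cell NMP, leaf LGC, bridge BETTI (helper587) — a complete DVR containing the roots

`exists_dvr_rootPoly`: for a complete discrete valuation ring `𝒪` of characteristic zero with
finite residue field and a monic `R ∈ ℤ[X]`, squarefree over `ℚ`, there is a complete discrete
valuation ring `𝒪'`, finite over `𝒪` (the ring of integers of the splitting field of `R` over
`Frac 𝒪`), over which `R = ∏_{b ∈ s} (X - b)` with `s` without repetition.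
-/

set_option autoImplicit false
set_option linter.style.haveILetI false

noncomputable section

open Polynomial IsLocalRing

namespace Fermat.Agent.S59.NMP.H587

open Fermat.Agent.S59.G4.H109

theorem exists_dvr_rootPoly (𝒪 : Type) [CommRing 𝒪] [IsDomain 𝒪] [IsDiscreteValuationRing 𝒪]
    [IsAdicComplete (maximalIdeal 𝒪) 𝒪] [Finite (ResidueField 𝒪)] [CharZero 𝒪]
    (R : ℤ[X]) (hRm : R.Monic) (hRsq : Squarefree (R.map (Int.castRingHom ℚ))) :
    ∃ (𝒪' : Type) (_ : CommRing 𝒪') (_ : IsDomain 𝒪') (_ : IsDiscreteValuationRing 𝒪')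
      (_ : IsAdicComplete (maximalIdeal 𝒪') 𝒪') (_ : Finite (ResidueField 𝒪')) (_ : CharZero 𝒪')
      (_ : Algebra 𝒪 𝒪') (_ : Module.Finite 𝒪 𝒪') (_ : IsLocalHom (algebraMap 𝒪 𝒪')),
      Function.Injective (algebraMap 𝒪 𝒪') ∧
      ∃ s : Multiset 𝒪', s.Nodup ∧ R.map (Int.castRingHom 𝒪') = rootPoly s := by
  classical
  let K := FractionRing 𝒪
  haveI : CharZero K := charZero_K 𝒪 K
  let f : K[X] := R.map (Int.castRingHom K)
  let L := f.SplittingField
  haveI : CharZero L := charZero_L 𝒪 K L
  let 𝒪' := intRingO 𝒪 L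
  haveI hloc : IsLocalRing 𝒪' := intRingO_isLocalRing 𝒪 K L
  haveI hdvr : IsDiscreteValuationRing 𝒪' := intRingO_isDiscreteValuationRing 𝒪 K L
  have hcomp : IsAdicComplete (maximalIdeal 𝒪') 𝒪' := intRingO_isAdicComplete 𝒪 K L
  have hfin : Finite (ResidueField 𝒪') := intRingO_finite_residueField 𝒪 K L
  have hchar : CharZero 𝒪' := intRingO_charZero 𝒪 K L
  have hmf : Module.Finite 𝒪 𝒪' := intRingO_moduleFinite 𝒪 K L
  have hlh : IsLocalHom (algebraMap 𝒪 𝒪') := intRingO_isLocalHom 𝒪 K L
  refine ⟨𝒪', inferInstance, inferInstance, hdvr, hcomp, hfin, hchar, inferInstance, hmf, hlh,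
    algebraMap_intRingO_injective 𝒪 K L, ?_⟩
  -- the roots
  have hfL : f.map (algebraMap K L) = R.map (Int.castRingHom L) := by
    rw [Polynomial.map_map,
      show (algebraMap K L).comp (Int.castRingHom K) = Int.castRingHom L from
        RingHom.ext_int _ _]
  have hsplit : (R.map (Int.castRingHom L)).Splits := by
    rw [← hfL]
    exact SplittingField.splits f
  have hmonL : (R.map (Int.castRingHom L)).Monic := hRm.map _
  have hprod := hsplit.eq_prod_roots_of_monic hmonL
  set rts : Multiset L := (R.map (Int.castRingHom L)).roots with hrts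
  have hnd : rts.Nodup := nodup_roots (separable_map_of_squarefree_rat hRsq L)
  -- the roots are integral
  have hint : ∀ r ∈ rts, r ∈ integralClosure 𝒪 L := by
    intro r hr
    have hr0 : (R.map (Int.castRingHom L)).IsRoot r := (mem_roots hmonL.ne_zero).mp hr
    refine ⟨R.map (Int.castRingHom 𝒪), hRm.map _, ?_⟩
    rw [IsRoot.def, eval_map] at hr0
    rw [eval₂_map,
      show (algebraMap 𝒪 L).comp (Int.castRingHom 𝒪) = Int.castRingHom L from
        RingHom.ext_int _ _]
    exact hr0
  let s : Multiset 𝒪' := rts.pmap (fun r hr => (⟨r, hr⟩ : 𝒪')) hint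
  have hsmap : s.map (fun x : 𝒪' => (x : L)) = rts := by
    rw [Multiset.map_pmap]
    exact (Multiset.pmap_eq_map _ _ _ hint).trans (Multiset.map_id' rts)
  refine ⟨s, ?_, ?_⟩
  · exact Multiset.Nodup.of_map _ (by rw [hsmap]; exact hnd)
  · have hinj : Function.Injective (algebraMap 𝒪' L) := Subtype.val_injective
    apply Polynomial.map_injective (algebraMap 𝒪' L) hinj
    rw [Polynomial.map_map]
    have h1 : (algebraMap 𝒪' L).comp (Int.castRingHom 𝒪') = Int.castRingHom L :=
      RingHom.ext_int _ _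
    rw [h1, hprod, rootPoly, Polynomial.map_multiset_prod, Multiset.map_map]
    have h2 : (s.map ((Polynomial.map (algebraMap 𝒪' L)) ∘ fun b => X - C b)) =
        (s.map fun x : 𝒪' => (x : L)).map fun a => X - C a := by
      rw [Multiset.map_map]
      refine Multiset.map_congr rfl fun x _ => ?_
      simp
    rw [h2, hsmap]

end Fermat.Agent.S59.NMP.H587
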