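import Mathlib
import Fermat.Prelude.Def_GaloisRep_Adic

/-!
# S59 / cell NMP, leaf LGC, bridge BETTI (helper587) — fullness is stable under base change

* `span_baseChange_eq_top` : `V` finite free over `A`, `B` an `A`-algebra, `s ⊆ End_A V` with
  `A`-span `⊤`.  Then the `B`-span of `{f ⊗ B | f ∈ s}` is `End_B (B ⊗ V)`.
* `span_range_baseChangeAlong` : if `A[G_ℚ] → End_A V_ρ` is onto, then
  `B[G_ℚ] → End_B V_{ρ ⊗ B}` is onto.
-/

set_option autoImplicit false
set_option linter.unusedSectionVars false
set_option linter.style.haveILetI false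

noncomputable section

open scoped TensorProduct

namespace Fermat.Agent.S59.NMP.H587

section Abstract

variable {A B : Type*} [CommRing A] [CommRing B] [Algebra A B]
  {V : Type*} [AddCommGroup V] [Module A V] [Module.Free A V] [Module.Finite A V]

theorem baseChange_mem_span {s : Set (Module.End A V)} {f : Module.End A V}
    (hf : f ∈ Submodule.span A s) :
    f.baseChange B ∈ Submodule.span B ((fun g : Module.End A V => g.baseChange B) '' s) := by
  induction hf using Submodule.span_induction with
  | mem x hx => exact Submodule.subset_span ⟨x, hx, rfl⟩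
  | zero =>
    rw [LinearMap.baseChange_zero]
    exact zero_mem _
  | add x y _ _ hx hy =>
    rw [LinearMap.baseChange_add]
    exact add_mem hx hy
  | smul a x _ hx =>
    have h1 : (a • x).baseChange B = (algebraMap A B a) • x.baseChange B := by
      apply TensorProduct.AlgebraTensorModule.curry_injective
      refine LinearMap.ext fun b => LinearMap.ext fun v => ?_
      simp [TensorProduct.tmul_smul, TensorProduct.smul_tmul', Algebra.smul_def, mul_comm]
    rw [h1]
    exact Submodule.smul_mem _ _ hx

theorem span_baseChange_eq_top {s : Set (Module.End A V)} (hs : Submodule.span A s = ⊤) :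
    Submodule.span B ((fun g : Module.End A V => g.baseChange B) '' s) = ⊤ := by
  classical
  rw [eq_top_iff]
  intro g _
  set b := Module.Free.chooseBasis A V with hb
  set b' := Algebra.TensorProduct.basis B b with hb'
  have hall : ∀ f : Module.End A V,
      f.baseChange B ∈ Submodule.span B ((fun g : Module.End A V => g.baseChange B) '' s) :=
    fun f => baseChange_mem_span (by rw [hs]; exact Submodule.mem_top)
  have hsingle : ∀ i j, Matrix.toLin b' b' (Matrix.single i j (1 : B)) =
      (Matrix.toLin b b (Matrix.single i j (1 : A))).baseChange B := by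
    intro i j
    apply (LinearMap.toMatrix b' b').injective
    rw [LinearMap.toMatrix_toLin, hb', LinearMap.toMatrix_baseChange, LinearMap.toMatrix_toLin]
    ext k l
    simp only [Matrix.single_apply, Matrix.map_apply]
    split_ifs <;> simp
  have hg : g = Matrix.toLin b' b' (LinearMap.toMatrix b' b' g) := by
    rw [Matrix.toLin_toMatrix]
  rw [hg, Matrix.matrix_eq_sum_single (LinearMap.toMatrix b' b' g)]
  simp only [map_sum]
  refine Submodule.sum_mem _ fun i _ => Submodule.sum_mem _ fun j _ => ?_
  have e1 : (Matrix.single i j (LinearMap.toMatrix b' b' g i j) : Matrix _ _ B)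
      = LinearMap.toMatrix b' b' g i j • Matrix.single i j (1 : B) := by
    rw [Matrix.smul_single, smul_eq_mul, mul_one]
  rw [e1, map_smul, hsingle]
  exact Submodule.smul_mem _ _ (hall _)

end Abstract

/-- **Fullness is stable under base change.** -/
theorem span_range_baseChangeAlong {A B : Type} [CommRing A] [IsLocalRing A] [CommRing B]
    [IsLocalRing B] (φ : A →+* B) (hφ : IsLocalHom φ) (ρ : GaloisRepAdic A)
    (h : Submodule.span A (Set.range ρ.ρ) = ⊤) :
    Submodule.span B (Set.range (ρ.baseChangeAlong φ hφ).ρ) = ⊤ := by
  letI : Algebra A B := φ.toAlgebra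
  have h1 := span_baseChange_eq_top (B := B) h
  have h2 : Set.range (ρ.baseChangeAlong φ hφ).ρ =
      (fun g : Module.End A ρ.V => g.baseChange B) '' Set.range ρ.ρ := by
    ext f
    constructor
    · rintro ⟨σ, rfl⟩
      exact ⟨ρ.ρ σ, ⟨σ, rfl⟩, rfl⟩
    · rintro ⟨_, ⟨σ, rfl⟩, rfl⟩
      exact ⟨σ, rfl⟩
  rw [h2]
  exact h1

end Fermat.Agent.S59.NMP.H587
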