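import Fermat.Agent.S59.NMP.Spec

/-!
# S59 / cell NMP, leaf LGC, bridge BETTI (helper587) — `UnrFrobAt` and base change

`UnrFrobAt ρ p α → UnrFrobAt (ρ ⊗_φ B) p (φ α)` for a local homomorphism `φ : A → B`.
-/

set_option autoImplicit false
set_option linter.style.haveILetI false

open IsLocalRing TensorProduct

namespace Fermat.Agent.S59.NMP.H587

open Fermat.Agent.S59.NMP

/-- The linear algebra behind `unrFrobAt_baseChangeAlong`: a line `L = A ∙ b 0` of a free module
`V` of rank two and its base change `B ∙ (1 ⊗ b 0)`. -/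
theorem exists_line_baseChange {A B V : Type*} [CommRing A] [CommRing B] [Algebra A B]
    [AddCommGroup V] [Module A V] (L : Submodule A V) (b : Module.Basis (Fin 2) A V)
    (hb : L = A ∙ b 0) :
    ∃ L' : Submodule B (B ⊗[A] V),
      (∃ b' : Module.Basis (Fin 2) B (B ⊗[A] V), L' = B ∙ b' 0) ∧
      (∀ f : V →ₗ[A] V, (∀ v ∈ L, f v ∈ L) → ∀ w ∈ L', f.baseChange B w ∈ L') ∧
      (∀ f : V →ₗ[A] V, (∀ v : V, f v - v ∈ L) →
        ∀ w : B ⊗[A] V, f.baseChange B w - w ∈ L') ∧
      (∀ (f : V →ₗ[A] V) (a : A), (∀ v : V, f v - a • v ∈ L) →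
        ∀ w : B ⊗[A] V, f.baseChange B w - algebraMap A B a • w ∈ L') := by
  let b' : Module.Basis (Fin 2) B (B ⊗[A] V) := b.baseChange B
  have hb'0 : b' 0 = (1 : B) ⊗ₜ[A] b 0 := Module.Basis.baseChange_apply B b 0
  have hmem : ∀ (c : B) (v : V), v ∈ L →
      c ⊗ₜ[A] v ∈ (B ∙ ((1 : B) ⊗ₜ[A] b 0) : Submodule B (B ⊗[A] V)) := by
    intro c v hv
    rw [hb] at hv
    obtain ⟨a, rfl⟩ := Submodule.mem_span_singleton.mp hv
    rw [Submodule.mem_span_singleton]
    refine ⟨c * algebraMap A B a, ?_⟩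
    rw [TensorProduct.smul_tmul', smul_eq_mul, mul_one, TensorProduct.tmul_smul,
      TensorProduct.smul_tmul', Algebra.smul_def, mul_comm]
  have hb0L : b 0 ∈ L := by
    rw [hb]
    exact Submodule.mem_span_singleton_self _
  have hscal : ∀ (f : V →ₗ[A] V) (a : A), (∀ v : V, f v - a • v ∈ L) →
      ∀ w : B ⊗[A] V, f.baseChange B w - algebraMap A B a • w ∈
        (B ∙ ((1 : B) ⊗ₜ[A] b 0) : Submodule B (B ⊗[A] V)) := by
    intro f a hf w
    induction w using TensorProduct.induction_on with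
    | zero =>
      rw [LinearMap.map_zero, smul_zero, sub_zero]
      exact Submodule.zero_mem _
    | tmul c v =>
      have h1 : algebraMap A B a • (c ⊗ₜ[A] v) = c ⊗ₜ[A] (a • v) := by
        rw [TensorProduct.smul_tmul', smul_eq_mul, TensorProduct.tmul_smul,
          TensorProduct.smul_tmul', Algebra.smul_def]
      rw [LinearMap.baseChange_tmul, h1, ← TensorProduct.tmul_sub]
      exact hmem c _ (hf v)
    | add x y hx hy =>
      rw [LinearMap.map_add, smul_add, add_sub_add_comm]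
      exact Submodule.add_mem _ hx hy
  refine ⟨B ∙ b' 0, ⟨b', rfl⟩, ?_, ?_, ?_⟩
  · intro f hf w hw
    rw [hb'0] at hw ⊢
    obtain ⟨c, rfl⟩ := Submodule.mem_span_singleton.mp hw
    rw [LinearMap.map_smul]
    refine Submodule.smul_mem _ _ ?_
    rw [LinearMap.baseChange_tmul]
    exact hmem 1 _ (hf _ hb0L)
  · intro f hf w
    rw [hb'0]
    have := hscal f 1 (fun v => by rw [one_smul]; exact hf v) w
    rwa [map_one, one_smul] at this
  · intro f a hf w
    rw [hb'0]
    exact hscal f a hf w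

variable {A : Type} [CommRing A] [IsLocalRing A] {B : Type} [CommRing B] [IsLocalRing B]

/-- **Base change of the unramified Frobenius eigenvalue.** -/
theorem unrFrobAt_baseChangeAlong (φ : A →+* B) (hφ : IsLocalHom φ) {ρ : GaloisRepAdic A} {p : ℕ}
    {α : A} (h : UnrFrobAt ρ p α) : UnrFrobAt (ρ.baseChangeAlong φ hφ) p (φ α) := by
  letI : Algebra A B := φ.toAlgebra
  obtain ⟨P, hP, L, ⟨b, hb⟩, hD, hI, hF⟩ := h
  obtain ⟨L', hL', hst, hin, hsc⟩ := exists_line_baseChange (B := B) L b hb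
  refine ⟨P, hP, L', hL', ?_, ?_, ?_⟩
  · intro σ hσ v hv
    exact hst (ρ.ρ σ) (hD σ hσ) v hv
  · intro σ hσ v
    exact hin (ρ.ρ σ) (hI σ hσ) v
  · intro σ hσ v
    exact hsc (ρ.ρ σ) α (hF σ hσ) v

end Fermat.Agent.S59.NMP.H587
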