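import Fermat.Agent.S59.NMP.H587.BettiSpec
import Fermat.Agent.S59.NMP.H587.BettiChar
import Fermat.Agent.S59.NMP.H587.DvrExt
import Fermat.Agent.S59.NMP.H587.UnrBC
import Fermat.Agent.S59.NMP.H587.SpanBC
import Fermat.Agent.S59.NM.Spec
import Fermat.Agent.S31.H862.Reduced
import Fermat.Agent.S22

/-!
# S59 / cell NMP, leaf LGC, bridge BETTI (helper587) — the core

`betti_bridge`: LGC-CHAR (`LgcCharStatement`) implies, for every full representation `ρ` over `𝒪`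
with Frobenius characteristic polynomials `X² - a_ℓ X + ℓ` (`ℓ ∉ Σ`) and unramified Frobenius eigenvalue
`α` at `p ∈ Σ`, `p ∤ N`:  `α · T_p x = (α² + p) · x` on every Betti `a`-eigenclass `x` of level `N`.

Proof.  `T_p` lies in the Hecke algebra `𝕋' = heckeAlgebra N 2 (Σ ∖ {p})`, which is reduced and
finite over `ℤ`; so `T_p` is a root of a monic `R ∈ ℤ[X]`, squarefree over `ℚ` (`SqfreeAnn`).  Over
the ring of integers `𝒪'` of the splitting field, `R = ∏ (X - b)` with distinct `b` (`DvrExt`).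
`𝕋'` acts on `W = Hom(Λ, 𝒪')` (`NM.H709.actHom`), the `a`-eigenclasses form a `T_p`-stable
submodule `Y`, and an eigenvector of `T_p` in `Y` with eigenvalue `c` is a joint eigenvector of
`𝕋'`, i.e. a character `χ'` with `χ'(T_p) = c` (`BettiChar`); LGC-CHAR for `χ'` and `ρ ⊗ 𝒪'`
(`UnrBC`) gives `α c = α² + p`.  Conclude by `EigenLin`.
-/

set_option autoImplicit false
set_option linter.style.haveILetI false
set_option linter.unusedSectionVars false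

noncomputable section

open Polynomial IsLocalRing CongruenceSubgroup ModularCurve ModularCurve.Period

namespace Fermat.Agent.S59.NMP.H587

open CuspForm Fermat.Agent.S30.H709 Fermat.Agent.S59.NM.H709 Fermat.Agent.S41.Spec
  Fermat.Agent.S29.H642 Fermat.Agent.S59.NMP Fermat.Agent.S59

section Stable

variable {N : ℕ} [NeZero N] {S : Set ℕ} (O : Type) [CommRing O]
  (hNS : ∀ q : ℕ, q.Prime → q ∣ N → q ∈ S)

/-- The joint eigenspace of the `T_ℓ`, `ℓ ∉ S ∪ {p}`, in `Hom(Λ, O)`, for the eigenvalues `e`. -/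
def eigSub (p : ℕ) (e : ℕ → O) : Submodule O (perLattice N →+ O) where
  carrier := {u | ∀ (ℓ : ℕ) (hℓ : ℓ.Prime) (hℓN : ¬ ℓ ∣ N) (hℓS : ℓ ∉ S), ℓ ≠ p →
    actHom O hNS (heckeAlgebra.T hℓ hℓN hℓS) u = e ℓ • u}
  zero_mem' := by
    intro ℓ hℓ hℓN hℓS _
    rw [map_zero, smul_zero]
  add_mem' := by
    intro u v hu hv ℓ hℓ hℓN hℓS hℓp
    rw [map_add, hu ℓ hℓ hℓN hℓS hℓp, hv ℓ hℓ hℓN hℓS hℓp, smul_add]
  smul_mem' := by
    intro c u hu ℓ hℓ hℓN hℓS hℓp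
    rw [map_smul, hu ℓ hℓ hℓN hℓS hℓp, smul_comm]

theorem mem_eigSub {p : ℕ} {e : ℕ → O} {u : perLattice N →+ O} :
    u ∈ eigSub O hNS p e ↔ ∀ (ℓ : ℕ) (hℓ : ℓ.Prime) (hℓN : ¬ ℓ ∣ N) (hℓS : ℓ ∉ S), ℓ ≠ p →
      actHom O hNS (heckeAlgebra.T hℓ hℓN hℓS) u = e ℓ • u := Iff.rfl

/-- The joint eigenspace is stable under the whole Hecke algebra. -/
theorem actHom_mem_eigSub {p : ℕ} {e : ℕ → O} (t : heckeAlgebra N 2 S) {u : perLattice N →+ O}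
    (hu : u ∈ eigSub O hNS p e) : actHom O hNS t u ∈ eigSub O hNS p e := by
  intro ℓ hℓ hℓN hℓS hℓp
  rw [← Module.End.mul_apply, ← map_mul, mul_comm, map_mul, Module.End.mul_apply,
    hu ℓ hℓ hℓN hℓS hℓp, map_smul]

end Stable

/-- The action of the Hecke algebra on `Hom(Λ, O)`, as a `ℤ`-algebra homomorphism. -/
def actAlgHom {N : ℕ} [NeZero N] {S : Set ℕ} (O : Type) [CommRing O]
    (hNS : ∀ q : ℕ, q.Prime → q ∣ N → q ∈ S) :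
    heckeAlgebra N 2 S →ₐ[ℤ] Module.End O (perLattice N →+ O) :=
  { actHom O hNS with
    commutes' := fun r => by
      show actHom O hNS (algebraMap ℤ _ r) = algebraMap ℤ _ r
      rw [eq_intCast (algebraMap ℤ (heckeAlgebra N 2 S)) r, map_intCast]
      refine LinearMap.ext fun u => ?_
      rw [Module.algebraMap_end_apply]
      refine AddMonoidHom.ext fun x => ?_
      simp }

theorem actAlgHom_apply {N : ℕ} [NeZero N] {S : Set ℕ} (O : Type) [CommRing O]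
    (hNS : ∀ q : ℕ, q.Prime → q ∣ N → q ∈ S) (t : heckeAlgebra N 2 S) :
    actAlgHom O hNS t = actHom O hNS t := rfl

/-- A polynomial relation in the Hecke algebra holds for the action on `Hom(Λ, O)`. -/
theorem aeval_actHom_eq_zero {N : ℕ} [NeZero N] {S : Set ℕ} (O : Type) [CommRing O]
    (hNS : ∀ q : ℕ, q.Prime → q ∣ N → q ∈ S) (t : heckeAlgebra N 2 S) (R : ℤ[X])
    (hR : aeval t R = 0) :
    aeval (actHom O hNS t) (R.map (Int.castRingHom O)) = 0 := by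
  have h1 : aeval (actHom O hNS t) (R.map (Int.castRingHom O)) = aeval (actHom O hNS t) R := by
    rw [← algebraMap_int_eq, aeval_map_algebraMap]
  rw [h1]
  have h2 := Polynomial.aeval_algHom_apply (actAlgHom O hNS) t R
  rw [hR, map_zero, actAlgHom_apply] at h2
  exact h2

/-- Characteristic polynomials commute with base change. -/
theorem charpoly_baseChangeAlong_h587 {A B : Type} [CommRing A] [IsLocalRing A] [CommRing B]
    [IsLocalRing B] (φ : A →+* B) (hφ : IsLocalHom φ) (ρ : GaloisRepAdic A)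
    (σ : AlgebraicClosure ℚ ≃ₐ[ℚ] AlgebraicClosure ℚ) :
    LinearMap.charpoly ((ρ.baseChangeAlong φ hφ).ρ σ) = (LinearMap.charpoly (ρ.ρ σ)).map φ := by
  letI : Algebra A B := φ.toAlgebra
  exact LinearMap.charpoly_baseChange (ρ.ρ σ) B

/-- The eigenvalue identity on the `T_p`-eigenvectors of the joint eigenspace. -/
theorem eigen_of_char (hchar : LgcCharStatement)
    (p : ℕ) [Fact p.Prime] (hp2 : p ≠ 2)
    (𝒪 : Type) [CommRing 𝒪] [IsDomain 𝒪] [IsDiscreteValuationRing 𝒪]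
    [IsAdicComplete (maximalIdeal 𝒪) 𝒪] [Finite (ResidueField 𝒪)] [CharZero 𝒪]
    (𝒪' : Type) [CommRing 𝒪'] [IsDomain 𝒪'] [IsDiscreteValuationRing 𝒪']
    [IsAdicComplete (maximalIdeal 𝒪') 𝒪'] [Finite (ResidueField 𝒪')] [CharZero 𝒪']
    (ι : 𝒪 →+* 𝒪') (hlh : IsLocalHom ι)
    (hp𝒪' : (p : 𝒪') ∈ maximalIdeal 𝒪')
    (N : ℕ) [NeZero N] (hpN : ¬ p ∣ N) (Sig S' : Finset ℕ) (hS' : S' = Sig.erase p)
    (hNS' : ∀ q : ℕ, q.Prime → q ∣ N → q ∈ (↑S' : Set ℕ)) (hpS' : p ∉ (↑S' : Set ℕ))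
    (ρ : GaloisRepAdic 𝒪) (hspan : Submodule.span 𝒪 (Set.range ρ.ρ) = ⊤) (a : ℕ → 𝒪)
    (hρ : ∀ (ℓ : ℕ), ℓ.Prime → ¬ ℓ ∣ N → ℓ ∉ Sig →
      ∀ A : ValuationSubring (AlgebraicClosure ℚ), A.LiesOverPrime ℓ →
        ∀ σ : AlgebraicClosure ℚ ≃ₐ[ℚ] AlgebraicClosure ℚ, A.IsFrobeniusAt σ ℓ →
          LinearMap.charpoly (ρ.ρ σ) = X ^ 2 - C (a ℓ) * X + C ((ℓ : 𝒪)))
    (α : 𝒪) (hα : UnrFrobAt ρ p α)
    (c : 𝒪') (v : perLattice N →+ 𝒪') (hv : v ∈ eigSub 𝒪' hNS' p (fun ℓ => ι (a ℓ)))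
    (hv0 : v ≠ 0)
    (hTv : actHom 𝒪' hNS' (heckeAlgebra.T (Fact.out : p.Prime) hpN hpS') v = c • v) :
    ι α * c = ι α ^ 2 + (p : 𝒪') := by
  classical
  have hp : p.Prime := Fact.out
  have hSig_of : ∀ ℓ : ℕ, ℓ ∉ (↑S' : Set ℕ) → ℓ ≠ p → ℓ ∉ Sig := by
    intro ℓ hℓ hℓp hmem
    refine hℓ ?_
    rw [hS']
    exact Finset.mem_coe.mpr (Finset.mem_erase.mpr ⟨hℓp, hmem⟩)
  obtain ⟨e, he⟩ : ∃ e : ℕ → 𝒪', ∀ ℓ, e ℓ = if ℓ = p then c else ι (a ℓ) := ⟨_, fun _ => rfl⟩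
  have hep : e p = c := by rw [he, if_pos rfl]
  have hene : ∀ ℓ, ℓ ≠ p → e ℓ = ι (a ℓ) := fun ℓ h => by rw [he, if_neg h]
  have hev : ∀ (ℓ : ℕ) (hℓ : ℓ.Prime) (hℓN : ¬ ℓ ∣ N) (hℓS : ℓ ∉ (↑S' : Set ℕ)),
      actHom 𝒪' hNS' (heckeAlgebra.T hℓ hℓN hℓS) v = e ℓ • v := by
    intro ℓ hℓ hℓN hℓS
    by_cases hℓp : ℓ = p
    · subst hℓp
      rw [hep]
      exact hTv
    · rw [hene ℓ hℓp]
      exact hv ℓ hℓ hℓN hℓS hℓp
  obtain ⟨χ, -, hχ⟩ := exists_char_of_eigen hNS' v hv0 e hev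
  have hχp : χ (heckeAlgebra.T hp hpN hpS') = c := by
    rw [hχ p hp hpN hpS', hep]
  have hρ' : ∀ (ℓ : ℕ) (hℓ : ℓ.Prime) (hℓN : ¬ ℓ ∣ N) (hℓS : ℓ ∉ (↑S' : Set ℕ)), ℓ ≠ p →
      ∀ A : ValuationSubring (AlgebraicClosure ℚ), A.LiesOverPrime ℓ →
        ∀ σ : AlgebraicClosure ℚ ≃ₐ[ℚ] AlgebraicClosure ℚ, A.IsFrobeniusAt σ ℓ →
          LinearMap.charpoly ((ρ.baseChangeAlong ι hlh).ρ σ) =
            X ^ 2 - C (χ (heckeAlgebra.T hℓ hℓN hℓS)) * X + C ((ℓ : 𝒪')) := by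
    intro ℓ hℓ hℓN hℓS hℓp A hA σ hσ
    rw [charpoly_baseChangeAlong_h587, hρ ℓ hℓ hℓN (hSig_of ℓ hℓS hℓp) A hA σ hσ,
      hχ ℓ hℓ hℓN hℓS, hene ℓ hℓp]
    simp
  have hmain := hchar p hp2 N hpN S' hpS' hNS' 𝒪' hp𝒪' χ (ρ.baseChangeAlong ι hlh)
    (span_range_baseChangeAlong ι hlh ρ hspan) hρ'
    (ι α) (unrFrobAt_baseChangeAlong ι hlh hα)
  rw [hχp] at hmain
  linear_combination -hmain

/-- **The bridge BETTI, core form.** -/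
theorem betti_bridge (hchar : LgcCharStatement)
    (p : ℕ) [Fact p.Prime] (hp2 : p ≠ 2)
    (𝒪 : Type) [CommRing 𝒪] [IsDomain 𝒪] [IsDiscreteValuationRing 𝒪]
    [IsAdicComplete (maximalIdeal 𝒪) 𝒪] [Finite (ResidueField 𝒪)] [CharZero 𝒪]
    (hp𝒪 : (p : 𝒪) ∈ maximalIdeal 𝒪)
    (N : ℕ) [NeZero N] (hpN : ¬ p ∣ N) (Sig : Finset ℕ)
    (hNS : ∀ q : ℕ, q.Prime → q ∣ N → q ∈ Sig)
    (ρ : GaloisRepAdic 𝒪) (hspan : Submodule.span 𝒪 (Set.range ρ.ρ) = ⊤) (a : ℕ → 𝒪)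
    (hρ : ∀ (ℓ : ℕ), ℓ.Prime → ¬ ℓ ∣ N → ℓ ∉ Sig →
      ∀ A : ValuationSubring (AlgebraicClosure ℚ), A.LiesOverPrime ℓ →
        ∀ σ : AlgebraicClosure ℚ ≃ₐ[ℚ] AlgebraicClosure ℚ, A.IsFrobeniusAt σ ℓ →
          LinearMap.charpoly (ρ.ρ σ) = X ^ 2 - C (a ℓ) * X + C ((ℓ : 𝒪)))
    (α : 𝒪) (hα : UnrFrobAt ρ p α)
    (x : Additive (Gamma0 N) →+ 𝒪) (hx : NM.IsEigenclass N Sig a x) :
    α • heckeTransfer hpN x = (α ^ 2 + (p : 𝒪)) • x := by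
  classical
  have hp : p.Prime := Fact.out
  -- the Hecke algebra containing `T_p`
  obtain ⟨S', hS'⟩ : ∃ S' : Finset ℕ, S' = Sig.erase p := ⟨_, rfl⟩
  have hpS' : p ∉ (↑S' : Set ℕ) := by
    rw [Finset.mem_coe, hS']
    exact Finset.notMem_erase p Sig
  have hNS' : ∀ q : ℕ, q.Prime → q ∣ N → q ∈ (↑S' : Set ℕ) := by
    intro q hq hqN
    rw [Finset.mem_coe, hS', Finset.mem_erase]
    exact ⟨fun h => hpN (h ▸ hqN), hNS q hq hqN⟩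
  have hSig_of : ∀ ℓ : ℕ, ℓ ∉ (↑S' : Set ℕ) → ℓ ≠ p → ℓ ∉ Sig := by
    intro ℓ hℓ hℓp hmem
    refine hℓ ?_
    rw [hS']
    exact Finset.mem_coe.mpr (Finset.mem_erase.mpr ⟨hℓp, hmem⟩)
  obtain ⟨t, ht⟩ : ∃ t : heckeAlgebra N 2 (↑S' : Set ℕ), t = heckeAlgebra.T hp hpN hpS' :=
    ⟨_, rfl⟩
  -- a squarefree annihilating polynomial
  haveI : IsReduced (heckeAlgebra N 2 (↑S' : Set ℕ)) :=
    Fermat.Agent.S31.H862.heckeAlgebra_isReduced N _ hNS'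
  haveI : Module.Finite ℤ (heckeAlgebra N 2 (↑S' : Set ℕ)) := Fermat.Agent.S22.result N 2 _
  obtain ⟨R, hRm, hRsq, hRt⟩ :=
    exists_monic_squarefree_aeval_eq_zero t (Algebra.IsIntegral.isIntegral t)
  -- the ring of integers of the splitting field
  obtain ⟨𝒪', _, _, _, _, _, _, _, _, hlh, hinj, s, hs, hRs⟩ := exists_dvr_rootPoly 𝒪 R hRm hRsq
  obtain ⟨ι, hι⟩ : ∃ ι : 𝒪 →+* 𝒪', ι = algebraMap 𝒪 𝒪' := ⟨_, rfl⟩
  rw [← hι] at hlh hinj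
  have hp𝒪' : (p : 𝒪') ∈ maximalIdeal 𝒪' := by
    have h1 : ι (p : 𝒪) = (p : 𝒪') := map_natCast ι p
    rw [← h1]
    exact map_nonunit ι _ hp𝒪
  have hp0 : (p : 𝒪') ≠ 0 := by
    exact_mod_cast hp.ne_zero
  -- the operator `T_p` on `W = Hom(Λ, 𝒪')` and the eigenspace `Y`
  obtain ⟨T, hT⟩ : ∃ T : Module.End 𝒪' (perLattice N →+ 𝒪'), T = actHom 𝒪' hNS' t := ⟨_, rfl⟩
  obtain ⟨Y, hY⟩ : ∃ Y : Submodule 𝒪' (perLattice N →+ 𝒪'),
      Y = eigSub 𝒪' hNS' p (fun ℓ => ι (a ℓ)) := ⟨_, rfl⟩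
  have hTY : ∀ v ∈ Y, T v ∈ Y := by
    intro v hv
    rw [hY] at hv ⊢
    rw [hT]
    exact actHom_mem_eigSub 𝒪' hNS' t hv
  have hTs : aeval T (rootPoly s) = 0 := by
    rw [← hRs, hT]
    exact aeval_actHom_eq_zero 𝒪' hNS' t R hRt
  -- the class `x` over `𝒪'`
  obtain ⟨x', hx'⟩ : ∃ x' : Additive (Gamma0 N) →+ 𝒪', x' = ι.toAddMonoidHom.comp x := ⟨_, rfl⟩
  have hx'par : IsParabolicHom (Gamma0 N) x' := by
    intro γ hγ
    rw [hx', AddMonoidHom.comp_apply, hx.1.1 γ hγ, map_zero]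
  obtain ⟨u, hu⟩ : ∃ u : perLattice N →+ 𝒪', u = ofCls x' hx'par := ⟨_, rfl⟩
  have htu : toCls u = x' := by
    rw [hu]
    exact toCls_ofCls x' hx'par
  have huY : u ∈ Y := by
    rw [hY]
    intro ℓ hℓ hℓN hℓS hℓp
    haveI : Fact ℓ.Prime := ⟨hℓ⟩
    apply toCls_injective
    rw [toCls_actHom_T 𝒪' hNS' hℓN hℓS u, htu, toCls_smul, htu, hx', heckeTransfer_comp,
      hx.2 ℓ hℓN (hSig_of ℓ hℓS hℓp)]
    refine AddMonoidHom.ext fun γ => ?_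
    simp
  -- the eigenvalues of `T_p` on `Y`
  have H : ∀ (c : 𝒪') (v : perLattice N →+ 𝒪'), v ∈ Y → v ≠ 0 → T v = c • v →
      ι α * c = ι α ^ 2 + (p : 𝒪') := by
    intro c v hv hv0 hTv
    rw [hY] at hv
    rw [hT, ht] at hTv
    exact eigen_of_char hchar p hp2 𝒪 𝒪' ι hlh hp𝒪' N hpN Sig S' hS' hNS' hpS' ρ hspan a hρ α
      hα c v hv hv0 hTv
  have hαβ : ι α = 0 → ι α ^ 2 + (p : 𝒪') ≠ 0 := by
    intro h0
    rw [h0]
    simpa using hp0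
  have hfin := smul_apply_eq_of_aeval_prod T Y hTY (ι α) (ι α ^ 2 + (p : 𝒪')) hαβ H s hs huY
    (by rw [hTs]; rfl)
  -- back to the classes
  have hcls : ι α • heckeTransfer hpN x' = (ι α ^ 2 + (p : 𝒪')) • x' := by
    have h1 := congrArg toCls hfin
    rw [toCls_smul, toCls_smul, hT, ht, toCls_actHom_T 𝒪' hNS' hpN hpS' u, htu] at h1
    exact h1
  refine AddMonoidHom.ext fun γ => ?_
  apply hinj
  have h2 := DFunLike.congr_fun hcls γ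
  rw [hx', heckeTransfer_comp] at h2
  simpa using h2

end Fermat.Agent.S59.NMP.H587
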