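import Fermat.Agent.S59.NMP.SpecP
import Fermat.Agent.S59.NMP.H587.BettiCore
import Fermat.Agent.S31.H202.TraceRigid
import Fermat.Agent.S59.Arch.WilesLevel

/-!
# S59 / cell NMP, leaf LGC, route CHAR (helper587) — `lgc_of_char`

`lgc_of_char : LgcCharStatement → NMP.LgcStatement`.

`NMP.LgcStatement` (`NMP/SpecP.lean`) is reduced to LGC-CHAR (`NMP/H587/BettiSpec.lean`), the
quadratic relation `α² - χ(T_p) α + p = 0` for the characters `χ` of the Hecke algebra of level
`N` CONTAINING `T_p` (values in a finite extension of `𝒪`) and the full representations with the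
Frobenius characteristic polynomials of `χ` away from `p`.  No multiplicity one is used:
`T_p` is a root of a squarefree monic integral polynomial on the Betti eigenclasses
(`S31.H862.heckeAlgebra_isReduced`, `S22`), hence diagonalisable over the ring of integers of a
splitting field, and each eigenvalue is the value at `T_p` of a character (`betti_bridge`).
-/

set_option autoImplicit false

open Polynomial IsLocalRing CongruenceSubgroup

namespace Fermat.Agent.S59.NMP.H587

open CuspForm Fermat.Agent.S59.Arch Fermat.Agent.S59.H765 Fermat.Agent.S41.Spec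
  Fermat.Agent.S29.H642 Fermat.Agent.S59.NMP

/-- **LGC from LGC-CHAR.** -/
theorem lgc_of_char (hchar : LgcCharStatement) : LgcStatement := by
  intro p _ 𝒪 _ _ _ _ _ _ ρbar Smin h _hc Sig hSig hSigP _hpSig _hflat _hord _ _ θ _ _ _ _ _ _
    H hπ _hres _hcond π hπloc a hπa α hα hpN x hx
  have hp : p.Prime := Fact.out
  have hNS : ∀ q : ℕ, q.Prime → q ∣ wilesLevel p .flat Smin Sig → q ∈ Sig := fun q hq hqN =>
    mem_of_prime_dvd_wilesLevel hp h.hSmin hSigP h.hpSmin hSig q hq hqN
  have hspan : Submodule.span 𝒪 (Set.range (H.ρ.baseChangeAlong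
      (π : heckeLocal (wilesLevel p .flat Smin Sig) (↑Sig : Set ℕ) 𝒪 θ →+* 𝒪) hπloc).ρ) = ⊤ :=
    span_range_baseChangeAlong _ hπloc H.ρ
      (Fermat.Agent.S31.H202.span_range_rho_eq_top H.ρ H.residual_absIrr)
  refine betti_bridge hchar p h.hp2 𝒪 h.hp𝒪 (wilesLevel p .flat Smin Sig) hpN Sig hNS
    (H.ρ.baseChangeAlong
      (π : heckeLocal (wilesLevel p .flat Smin Sig) (↑Sig : Set ℕ) 𝒪 θ →+* 𝒪) hπloc)
    hspan a ?_ α hα x hx
  intro ℓ hℓ hℓN hℓS A hA σ hσ
  have hℓS' : ℓ ∉ (↑Sig : Set ℕ) := fun hm => hℓS (Finset.mem_coe.mp hm)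
  rw [charpoly_baseChangeAlong_h587, H.charpoly_frob ℓ hℓ hℓN hℓS' A hA σ hσ, hπ]
  have h1 := hπa ℓ hℓ hℓN hℓS'
  simp only [Polynomial.map_add, Polynomial.map_sub, Polynomial.map_mul, Polynomial.map_pow,
    Polynomial.map_X, Polynomial.map_C]
  rw [← h1]
  simp

end Fermat.Agent.S59.NMP.H587
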