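import Fermat.Agent.S59.NMP.Spec

/-!
# S59 / cell NMP, leaf LGC — the interface between the Betti side and the Tate side (helper587)

`NMP.LgcStatement` (`NMP/SpecP.lean`) is a statement on Betti eigenclasses of level `N` (prime to
`p`) for a system of eigenvalues away from `Σ ∋ p`.  The bridge BETTI
(`NMP/H587/Betti.lean`, `lgc_of_char`) reduces it to the following statement on characters of the
Hecke algebra **containing `T_p`**:

* `LgcCharStatement` (LGC-CHAR): `p` odd, `p ∤ N`, `S` a finite set of primes containing the primes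
  dividing `N` and NOT containing `p`; `𝒪` a complete discrete valuation ring of characteristic
  zero and residue characteristic `p`, with finite residue field; `χ : heckeAlgebra N 2 S →+* 𝒪`;
  `ρ` a FULL representation over `𝒪` (`𝒪[G_ℚ] → End V` onto; e.g. `ρ` residually absolutely
  irreducible, `S31.H202.span_range_rho_eq_top`) with
  `charpoly ρ(Frob_ℓ) = X² - χ(T_ℓ) X + ℓ` for the primes `ℓ ∉ S ∪ {p}`; `α` the unramified
  Frobenius eigenvalue of `ρ` at `p` (`NMP.UnrFrobAt`).  Then `α² - χ(T_p) α + p = 0`.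
  (`ρ.DetIsCyclotomic p` follows from the characteristic polynomials:
  `S59.H540.detIsCyclotomic_of_charpoly_frob`.)

[Tate side: the Tate eigenmodule of `χ` (family `T_ℓ`, `ℓ ∉ S`, INCLUDING `T_p`) is nonzero since
`χ` occurs in the parabolic cohomology (`S30.H709.exists_parEigen`) and the Kummer dictionary is
Hecke-equivariant at every prime `ℓ ∤ N` (`S15.H337.isKum_hecke_all`); Eichler–Shimura at `p` on
its inertia coinvariants.]
-/

set_option autoImplicit false

open Polynomial IsLocalRing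

namespace Fermat.Agent.S59.NMP.H587

open Fermat.Agent.S59.NMP

/-- **LGC-CHAR**: local–global compatibility at `p` for an eigencharacter of the Hecke algebra of
level `N` (prime to `p`) containing `T_p`. -/
def LgcCharStatement : Prop :=
  ∀ (p : ℕ) [Fact p.Prime] (_hp2 : p ≠ 2) (N : ℕ) [NeZero N] (hpN : ¬ p ∣ N) (S : Finset ℕ)
    (hpS : p ∉ (↑S : Set ℕ)) (_hNS : ∀ q : ℕ, q.Prime → q ∣ N → q ∈ (↑S : Set ℕ))
    (𝒪 : Type) [CommRing 𝒪] [IsDomain 𝒪] [IsDiscreteValuationRing 𝒪]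
    [IsAdicComplete (maximalIdeal 𝒪) 𝒪] [Finite (ResidueField 𝒪)] [CharZero 𝒪]
    (_hp𝒪 : (p : 𝒪) ∈ maximalIdeal 𝒪)
    (χ : CuspForm.heckeAlgebra N 2 (↑S : Set ℕ) →+* 𝒪)
    (ρ : GaloisRepAdic 𝒪) (_hspan : Submodule.span 𝒪 (Set.range ρ.ρ) = ⊤)
    (_hρ : ∀ (ℓ : ℕ) (hℓ : ℓ.Prime) (hℓN : ¬ ℓ ∣ N) (hℓS : ℓ ∉ (↑S : Set ℕ)), ℓ ≠ p →
      ∀ A : ValuationSubring (AlgebraicClosure ℚ), A.LiesOverPrime ℓ →
        ∀ σ : AlgebraicClosure ℚ ≃ₐ[ℚ] AlgebraicClosure ℚ, A.IsFrobeniusAt σ ℓ →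
          LinearMap.charpoly (ρ.ρ σ) =
            X ^ 2 - C (χ (CuspForm.heckeAlgebra.T hℓ hℓN hℓS)) * X + C ((ℓ : 𝒪)))
    (α : 𝒪) (_hα : UnrFrobAt ρ p α),
    α ^ 2 - χ (CuspForm.heckeAlgebra.T (Fact.out : p.Prime) hpN hpS) * α + (p : 𝒪) = 0

end Fermat.Agent.S59.NMP.H587
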