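import Fermat.Agent.S59.NMP.SpecP
import Fermat.Agent.S59.NMP.H587.BettiGen
import Fermat.Agent.S59.NMP.H587.EigenHom
import Fermat.Agent.S59.NMP.H590.EigDatum
import Fermat.Agent.S59.NMP.H590.EigModule
import Fermat.Agent.S59.NMP.H135.LgcSpec
import Fermat.Agent.S33.EigBFinal
import Fermat.Agent.S53.GlueInj
import Fermat.Agent.S59.Arch.WilesLevel

/-!
# S59 / cell NMP, leaf LGC, route CHAR (helper587) — `lgc_of_old_core`

    lgc_of_old_core : S33.OldAugStatement → H135.LgcCoreStatement → NMP.LgcStatement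

(`S33.OldAugStatement` is a theorem of main, `S33.H692.oldAugStatement`; it is plugged in
`NMP/H587/LgcFinal.lean`, to keep the closure of this file small.)

LGC (Eichler–Shimura at `p`, `NMP/SpecP.lean`) from the geometric leaf CORE
(`NMP/H135/LgcSpec.lean`; `H135.lgcCore_of_maxUnr : MaxUnrGoodStatement → LgcCoreStatement`).

Assembly (no multiplicity one, no operator form):

* `betti_of_eigen` (`NMP/H587/BettiGen.lean`): `T_p` is diagonalisable on the Betti eigenclasses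
  over the ring of integers `𝒪'` of a splitting field, so it is enough to treat the nonzero
  eigenclasses `y` over `𝒪'` with `T_p y = c y`;
* `exists_eigenHom_of_eigenclass` (`NMP/H587/EigenHom.lean`, construction of helper161): `y` gives
  a nonzero eigen-hom `f : Frac 𝒪' / 𝒪' → J₀(N)` with `T_p ∘ f = f ∘ c`;
* `H590.exists_eigenModule_geoRel` (helper590): `f` and CORE give an adic eigenmodule with GEO-REL
  for `F² - c F + p`;
* `H590.root_of_eigenModule` (helper590): `α² - c α + p = 0` for the unramified Frobenius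
  eigenvalue `α` of `H.ρ ⊗ 𝒪'`.
-/

set_option autoImplicit false
set_option linter.style.haveILetI false
set_option linter.unusedSectionVars false
set_option linter.unusedVariables false

noncomputable section

open Polynomial IsLocalRing CongruenceSubgroup

namespace Fermat.Agent.S59.NMP.H587

open CuspForm ModularCurve Fermat.Agent.S59.Arch Fermat.Agent.S59.H765 Fermat.Agent.S41.Spec
  Fermat.Agent.S29.H642 Fermat.Agent.S59.NMP Fermat.Agent.S31 Fermat.Agent.S33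
  Fermat.Agent.S30.H330

/-- The unramified Frobenius eigenvalue is an invariant of the equivalence class. -/
theorem unrFrobAt_of_isEquiv {A : Type} [CommRing A] [IsLocalRing A] {ρ₁ ρ₂ : GaloisRepAdic A}
    (h : ρ₁.IsEquiv ρ₂) {p : ℕ} {α : A} (hα : UnrFrobAt ρ₁ p α) : UnrFrobAt ρ₂ p α := by
  obtain ⟨e⟩ := h
  obtain ⟨P, hP, L, ⟨b, hb⟩, hD, hI, hF⟩ := hα
  have hmem : ∀ v : ρ₁.V, v ∈ L → e.toLinearEquiv v ∈ L.map (e.toLinearEquiv : ρ₁.V →ₗ[A] ρ₂.V) :=
    fun v hv => Submodule.mem_map_of_mem hv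
  refine ⟨P, hP, L.map (e.toLinearEquiv : ρ₁.V →ₗ[A] ρ₂.V), ⟨b.map e.toLinearEquiv, ?_⟩,
    ?_, ?_, ?_⟩
  · rw [hb, Submodule.map_span, Set.image_singleton]
    rfl
  · intro σ hσ w hw
    obtain ⟨v, hv, rfl⟩ := Submodule.mem_map.mp hw
    have h1 : ρ₂.ρ σ (e.toLinearEquiv v) = e.toLinearEquiv (ρ₁.ρ σ v) := (e.map_apply σ v).symm
    show ρ₂.ρ σ (e.toLinearEquiv v) ∈ _
    rw [h1]
    exact hmem _ (hD σ hσ v hv)
  · intro σ hσ w
    obtain ⟨v, rfl⟩ := e.toLinearEquiv.surjective w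
    have h1 : ρ₂.ρ σ (e.toLinearEquiv v) - e.toLinearEquiv v =
        e.toLinearEquiv (ρ₁.ρ σ v - v) := by
      rw [map_sub, e.map_apply]
    rw [h1]
    exact hmem _ (hI σ hσ v)
  · intro σ hσ w
    obtain ⟨v, rfl⟩ := e.toLinearEquiv.surjective w
    have h1 : ρ₂.ρ σ (e.toLinearEquiv v) - α • e.toLinearEquiv v =
        e.toLinearEquiv (ρ₁.ρ σ v - α • v) := by
      rw [map_sub, e.map_apply, map_smul]
    rw [h1]
    exact hmem _ (hF σ hσ v)

/-- CORE in the form used by helper590. -/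
theorem coreAt_of_lgcCore (hcore : H135.LgcCoreStatement) (p : ℕ) [Fact p.Prime] (hp2 : p ≠ 2)
    (N : ℕ) [NeZero N] (hpN : ¬ p ∣ N) : H590.CoreAt N p := by
  intro Pl hPl φ hφ n x hx
  have hx' : p ^ n • x = 0 := hx
  exact hcore p N Fact.out hp2 hpN Pl hPl φ hφ n x hx'

/-- **The inner claim**: the quadratic relation for the `T_p`-eigenvalue of a nonzero eigenclass
over the coefficient ring of a `p`-adic point of the Hecke ring. -/
theorem root_of_eigenclass (hOLD : Fermat.Agent.S33.OldAugStatement)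
    (hcore : H135.LgcCoreStatement)
    (p : ℕ) [Fact p.Prime] (hp2 : p ≠ 2) (N : ℕ) [NeZero N] (hpN : ¬ p ∣ N)
    (S : Finset ℕ) (hpS : p ∈ S) (hNS : ∀ q : ℕ, q.Prime → q ∣ N → q ∈ S)
    (𝒪 : Type) [CommRing 𝒪] [IsDomain 𝒪] [IsDiscreteValuationRing 𝒪]
    [IsAdicComplete (maximalIdeal 𝒪) 𝒪]
    (θ : heckeAlgebra N 2 (↑S : Set ℕ) →+* ResidueField 𝒪)
    (T : Type) [CommRing T] [IsLocalRing T] [IsNoetherianRing T]
    [IsAdicComplete (maximalIdeal T) T] [Algebra 𝒪 T] [IsLocalHom (algebraMap 𝒪 T)]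
    [Module.Finite 𝒪 T] [Module.Free 𝒪 T]
    (H : HeckeGaloisRepDatum N (↑S : Set ℕ) 𝒪 θ T)
    (P : PadicPoint p T) (hloc : IsLocalHom P.χ)
    (α : P.O) (hα : UnrFrobAt (H.ρ.baseChangeAlong P.χ hloc) p α)
    (c : P.O) (y : Additive (Gamma0 N) →+ P.O) (hy0 : y ≠ 0)
    (hy : NM.IsEigenclass N S (fun ℓ => eigenvalue (P.χ.comp H.π) ℓ) y)
    (hyp : heckeTransfer hpN y = c • y) :
    α ^ 2 - c * α + (p : P.O) = 0 := by
  obtain ⟨f, hf0, hfint, hfe, hfp⟩ :=
    exists_eigenHom_of_eigenclass P.hp hpN S (fun ℓ => eigenvalue (P.χ.comp H.π) ℓ) c y hy hy0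
      hyp
  have hF : ∀ (N : ℕ) [NeZero N] (p : ℕ) [Fact p.Prime], FinStatement N p := fun N _ p hp =>
    haveI : NeZero p := ⟨hp.out.ne_zero⟩
    Fermat.Agent.S30.H810.torsion_finite N p
  have hT : ∀ (N : ℕ) [NeZero N] (p : ℕ) [Fact p.Prime], TorsionRelations N p :=
    fun N _ p _ => Fermat.Agent.S30.H694.torsionRelations_of_nodes
      (fun M _ _ _ hℓM A hA => Fermat.Agent.S18.Mod.H216.node_mod M hℓM A hA)
      (fun M => Fermat.Agent.S18.H438.node_alg M) N p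
  obtain ⟨E, hE⟩ := H590.exists_eigenModule_geoRel hOLD hF hT
    p hp2 N hpN S hpS P.O P.hp (P.χ.comp H.π) c f hfint hf0
    (fun ℓ hℓS z => hfe ℓ (fun hd => hℓS (hNS ℓ ℓ.2 hd)) hℓS z) hfp
    (coreAt_of_lgcCore hcore p hp2 N hpN)
  exact H590.root_of_eigenModule p hp2 N S hpS hNS 𝒪 θ T H P hloc α hα E c hE

/-- **LGC from OLD and CORE** (route CHAR). -/
theorem lgc_of_old_core (hOLD : Fermat.Agent.S33.OldAugStatement)
    (hcore : H135.LgcCoreStatement) : LgcStatement := by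
  intro p _ 𝒪 _ _ _ _ _ _ ρbar Smin h _hc Sig hSig hSigP hpSig _hflat _hord _ _ θ _ _ _ _ _ _
    H hπ _hres _hcond π hπloc a hπa α hα hpN x hx
  have hp : p.Prime := Fact.out
  have hNS : ∀ q : ℕ, q.Prime → q ∣ wilesLevel p .flat Smin Sig → q ∈ Sig := fun q hq hqN =>
    mem_of_prime_dvd_wilesLevel hp h.hSmin hSigP h.hpSmin hSig q hq hqN
  refine betti_of_eigen p 𝒪 (wilesLevel p .flat Smin Sig) hpN Sig hpSig hNS a α ?_ x hx
  intro 𝒪' _ _ _ _ _ _ ι hlh hinj c y hy0 hy hyp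
  have hp𝒪' : (p : 𝒪') ∈ maximalIdeal 𝒪' := by
    have h1 : ι (p : 𝒪) = (p : 𝒪') := map_natCast ι p
    rw [← h1]
    exact map_nonunit ι _ h.hp𝒪
  -- the `p`-adic point `ι ∘ π` of the Hecke ring
  let P : PadicPoint p (heckeLocal (wilesLevel p .flat Smin Sig) (↑Sig : Set ℕ) 𝒪 θ) :=
    { O := 𝒪'
      hp := hp𝒪'
      χ := ι.comp (π : heckeLocal (wilesLevel p .flat Smin Sig) (↑Sig : Set ℕ) 𝒪 θ →+* 𝒪) }
  have hloc : IsLocalHom P.χ := by
    show IsLocalHom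
      (ι.comp (π : heckeLocal (wilesLevel p .flat Smin Sig) (↑Sig : Set ℕ) 𝒪 θ →+* 𝒪))
    haveI := hlh
    haveI := hπloc
    exact RingHom.isLocalHom_comp _ _
  have hα' : UnrFrobAt (H.ρ.baseChangeAlong P.χ hloc) p (ι α) :=
    unrFrobAt_of_isEquiv
      (Fermat.Agent.S53.H113.baseChangeAlong_comp_isEquiv
        (π : heckeLocal (wilesLevel p .flat Smin Sig) (↑Sig : Set ℕ) 𝒪 θ →+* 𝒪) hπloc ι hlh
        hloc H.ρ)
      (unrFrobAt_baseChangeAlong ι hlh hα)
  have hy' : NM.IsEigenclass (wilesLevel p .flat Smin Sig) Sig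
      (fun ℓ => eigenvalue (P.χ.comp H.π) ℓ) y := by
    refine ⟨hy.1, fun ℓ _ hℓN hℓS => ?_⟩
    have hℓS' : ℓ ∉ (↑Sig : Set ℕ) := fun hm => hℓS (Finset.mem_coe.mp hm)
    have e : eigenvalue (P.χ.comp H.π) ℓ = ι (a ℓ) := by
      unfold eigenvalue
      rw [dif_pos ⟨Fact.out, hℓN, hℓS'⟩]
      show ι (π (H.π (heckeAlgebra.T _ hℓN hℓS'))) = ι (a ℓ)
      rw [hπ, hπa ℓ Fact.out hℓN hℓS']
    show heckeTransfer hℓN y = eigenvalue (P.χ.comp H.π) ℓ • y
    rw [e]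
    exact hy.2 ℓ hℓN hℓS
  have hroot := root_of_eigenclass hOLD hcore p h.hp2 (wilesLevel p .flat Smin Sig) hpN Sig hpSig hNS
    𝒪 θ _ H P hloc (ι α) hα' c y hy0 hy' hyp
  have hroot' : ι α ^ 2 - c * ι α + (p : 𝒪') = 0 := hroot
  linear_combination -hroot'

end Fermat.Agent.S59.NMP.H587
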